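import Mathlib

/-!
# S51, P6: the map to `X₀(15)` (pure algebra)
-/

set_option autoImplicit false

namespace FA51

theorem core_shift {K : Type*} [Field K] [CharZero K] (d ξ : K) (hd : d ≠ 0)
    (H : ξ ^ 3 * d ^ 2 + 3 * ξ ^ 2 * (ξ - 1) ^ 2 * d + (ξ - 1) ^ 3 = 0)
    (a S c : K) (ha : a = (2 * ξ - 1) ^ 2 / 4) (hS : S = (d ^ 2 - 1) / d)
    (hc : c = (2 * ξ - 1) * (d ^ 2 + 1) / (2 * d)) :
    c ^ 2 = a * (S ^ 2 + 4) ∧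
      (2 + 24 * a) * S + (12 + 16 * a) * c + 3 * (1 - 4 * a) ^ 2 = 0 ∧ 4 * a ≠ 1 := by
  refine ⟨?_, ?_, ?_⟩
  · rw [ha, hS, hc]
    field_simp
    ring
  · rw [ha, hS, hc]
    field_simp
    linear_combination 128 * H
  · rw [ha]
    intro h
    have h1 : ξ * (ξ - 1) = 0 := by linear_combination h / 4
    rcases mul_eq_zero.1 h1 with h0 | h0
    · rw [h0] at H
      norm_num at H
    · have : ξ = 1 := by linear_combination h0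
      rw [this] at H
      norm_num at H
      exact hd H

theorem algebra_core {K : Type*} [Field K] [CharZero K] (b2 b4 b6 b8 x0 x1 x2 : K)
    (hb : 4 * b8 = b2 * b6 - b4 ^ 2) (h12 : x1 ≠ x2)
    (hB1 : 4 * x1 ^ 3 + b2 * x1 ^ 2 + 2 * b4 * x1 + b6 ≠ 0)
    (hB2 : 4 * x2 ^ 3 + b2 * x2 ^ 2 + 2 * b4 * x2 + b6 ≠ 0)
    (H1 : x2 * (4 * x1 ^ 3 + b2 * x1 ^ 2 + 2 * b4 * x1 + b6) =
      x1 ^ 4 - b4 * x1 ^ 2 - 2 * b6 * x1 - b8)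
    (H2 : x1 * (4 * x2 ^ 3 + b2 * x2 ^ 2 + 2 * b4 * x2 + b6) =
      x2 ^ 4 - b4 * x2 ^ 2 - 2 * b6 * x2 - b8)
    (H3 : 3 * x0 ^ 4 + b2 * x0 ^ 3 + 3 * b4 * x0 ^ 2 + 3 * b6 * x0 + b8 = 0)
    (s1 s2 E2 a S c : K) (hs1 : s1 = x1 + x2) (hs2 : s2 = x1 * x2) (hE2 : E2 = s1 ^ 2 - 4 * s2)
    (ha : a = (2 * x0 - s1) ^ 2 / (4 * E2))
    (hS : S = (4 * (s1 ^ 2 - s2) + b2 * s1 + 2 * b4) / E2)
    (hc : c = (2 * x0 - s1) * (4 * (s1 ^ 3 - 3 * s1 * s2) + b2 * (s1 ^ 2 - 2 * s2) + 2 * b4 * s1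
      + 2 * b6) / (2 * E2 ^ 2)) :
    E2 ≠ 0 ∧ c ^ 2 = a * (S ^ 2 + 4) ∧
      (2 + 24 * a) * S + (12 + 16 * a) * c + 3 * (1 - 4 * a) ^ 2 = 0 ∧
      -b2 ^ 2 * b8 - 8 * b4 ^ 3 - 27 * b6 ^ 2 + 9 * b2 * b4 * b6 = E2 ^ 3 * (S - 11) ∧
      b2 ^ 2 - 24 * b4 = E2 * (S ^ 2 - 12 * S + 16) ∧ 4 * a ≠ 1 := by
  obtain ⟨e, rfl⟩ : ∃ e, x2 = x1 + e := ⟨x2 - x1, by ring⟩
  have he : e ≠ 0 := by
    intro h
    apply h12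
    rw [h, add_zero]
  obtain ⟨ξ, rfl⟩ : ∃ ξ, x0 = x1 + e * ξ := ⟨(x0 - x1) / e, by field_simp; ring⟩
  obtain ⟨B2, rfl⟩ : ∃ B2, b2 = B2 - 12 * x1 := ⟨b2 + 12 * x1, by ring⟩
  obtain ⟨B4, rfl⟩ : ∃ B4, b4 = B4 - B2 * x1 + 6 * x1 ^ 2 := ⟨b4 + B2 * x1 - 6 * x1 ^ 2, by ring⟩
  obtain ⟨B6, rfl⟩ : ∃ B6, b6 = B6 - 2 * B4 * x1 + B2 * x1 ^ 2 - 4 * x1 ^ 3 :=
    ⟨b6 + 2 * B4 * x1 - B2 * x1 ^ 2 + 4 * x1 ^ 3, by ring⟩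
  obtain ⟨B8, rfl⟩ : ∃ B8, b8 = B8 - 3 * B6 * x1 + 3 * B4 * x1 ^ 2 - B2 * x1 ^ 3 + 3 * x1 ^ 4 :=
    ⟨b8 + 3 * B6 * x1 - 3 * B4 * x1 ^ 2 + B2 * x1 ^ 3 - 3 * x1 ^ 4, by ring⟩
  have hB6 : B6 ≠ 0 := by
    intro h
    apply hB1
    rw [← h]
    ring
  have K1 : B8 = -e * B6 := by linear_combination H1
  have K2 : e ^ 4 - B4 * e ^ 2 - 2 * B6 * e - B8 = 0 := by linear_combination (-1) * H2
  have K4 : 4 * B8 = B2 * B6 - B4 ^ 2 := by linear_combination hb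
  have K3 : B6 = e ^ 3 - B4 * e := by
    have : e * (e ^ 3 - B4 * e - B6) = 0 := by linear_combination K2 + K1
    rcases mul_eq_zero.1 this with h | h
    · exact absurd h he
    · linear_combination (-1) * h
  obtain ⟨d, hd⟩ : ∃ d, d = e ^ 3 / B6 := ⟨_, rfl⟩
  have hd0 : d ≠ 0 := by
    rw [hd]
    exact div_ne_zero (pow_ne_zero 3 he) hB6
  have e6 : B6 = e ^ 3 / d := by
    rw [hd]
    field_simp
  have e4 : B4 = e ^ 2 * (d - 1) / d := by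
    have : B4 * e = e ^ 3 - e ^ 3 / d := by rw [← e6]; linear_combination K3
    field_simp at this ⊢
    linear_combination this
  have e8 : B8 = -e ^ 4 / d := by
    rw [K1, e6]
    field_simp
  have e2 : B2 = e * (d ^ 2 - 6 * d + 1) / d := by
    have h1 : B2 * B6 = 4 * B8 + B4 ^ 2 := by linear_combination (-1) * K4
    rw [e6, e8, e4] at h1
    field_simp at h1 ⊢
    linear_combination h1
  have hE2' : E2 = e ^ 2 := by rw [hE2, hs1, hs2]; ring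
  have hE20 : E2 ≠ 0 := by rw [hE2']; exact pow_ne_zero 2 he
  have ha' : a = (2 * ξ - 1) ^ 2 / 4 := by
    rw [ha, hE2', hs1]
    field_simp
    ring
  have hS' : S = (d ^ 2 - 1) / d := by
    rw [hS, hE2', hs1, hs2, e2, e4]
    field_simp
    ring
  have hc' : c = (2 * ξ - 1) * (d ^ 2 + 1) / (2 * d) := by
    rw [hc, hE2', hs1, hs2, e2, e4, e6]
    field_simp
    ring
  have H : ξ ^ 3 * d ^ 2 + 3 * ξ ^ 2 * (ξ - 1) ^ 2 * d + (ξ - 1) ^ 3 = 0 := by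
    have h3 : 3 * (e * ξ) ^ 4 + B2 * (e * ξ) ^ 3 + 3 * B4 * (e * ξ) ^ 2 + 3 * B6 * (e * ξ) + B8
        = 0 := by linear_combination H3
    rw [e2, e4, e6, e8] at h3
    field_simp at h3
    have h4 : e ^ 4 * (ξ ^ 3 * d ^ 2 + 3 * ξ ^ 2 * (ξ - 1) ^ 2 * d + (ξ - 1) ^ 3) = 0 := by
      linear_combination h3
    rcases mul_eq_zero.1 h4 with h | h
    · exact absurd h (pow_ne_zero 4 he)
    · exact h
  obtain ⟨r1, r2, r3⟩ := core_shift d ξ hd0 H a S c ha' hS' hc'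
  refine ⟨hE20, r1, r2, ?_, ?_, r3⟩
  · have : -(B2 - 12 * x1) ^ 2 * (B8 - 3 * B6 * x1 + 3 * B4 * x1 ^ 2 - B2 * x1 ^ 3 + 3 * x1 ^ 4)
        - 8 * (B4 - B2 * x1 + 6 * x1 ^ 2) ^ 3
        - 27 * (B6 - 2 * B4 * x1 + B2 * x1 ^ 2 - 4 * x1 ^ 3) ^ 2
        + 9 * (B2 - 12 * x1) * (B4 - B2 * x1 + 6 * x1 ^ 2)
          * (B6 - 2 * B4 * x1 + B2 * x1 ^ 2 - 4 * x1 ^ 3)
        = -B2 ^ 2 * B8 - 8 * B4 ^ 3 - 27 * B6 ^ 2 + 9 * B2 * B4 * B6 := by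
      linear_combination (6 * B2 * x1 - 36 * x1 ^ 2) * K4
    rw [this, hE2', hS', e2, e4, e6, e8]
    field_simp
    ring
  · rw [hE2', hS', e2, e4]
    field_simp
    ring

end FA51
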