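import Mathlib

/-!
# S51, P7: from the rational point on `X₀(15)` to a contradiction with semistability
-/

set_option autoImplicit false

namespace FA51

theorem five_dvd_of_eq (c4 D m n : ℤ) (h : m * c4 ^ 3 = n * D) (hm : ¬ (5 : ℤ) ∣ m)
    (h5 : (5 : ℤ) ∣ n) (hn : ¬ (125 : ℤ) ∣ n) : (5 : ℤ) ∣ c4 ∧ (5 : ℤ) ∣ D := by
  have p5 : Prime (5 : ℤ) := Int.prime_iff_natAbs_prime.2 (by norm_num)
  have h1 : (5 : ℤ) ∣ m * c4 ^ 3 := by
    rw [h]
    exact Dvd.dvd.mul_right h5 D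
  have h2 : (5 : ℤ) ∣ c4 := by
    rcases p5.dvd_or_dvd h1 with h' | h'
    · exact absurd h' hm
    · exact p5.dvd_of_dvd_pow h'
  refine ⟨h2, ?_⟩
  by_contra hD
  have hcop : IsCoprime (5 : ℤ) D := (Prime.coprime_iff_not_dvd p5).2 hD
  have hcop3 : IsCoprime ((5 : ℤ) ^ 3) D := hcop.pow_left
  have h3 : (5 : ℤ) ^ 3 ∣ n * D := by
    rw [← h]
    exact Dvd.dvd.mul_left (pow_dvd_pow_of_dvd h2 3) m
  have h4 : (5 : ℤ) ^ 3 ∣ n := hcop3.dvd_of_dvd_mul_right h3
  norm_num at h4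
  exact hn h4

theorem endgame_of
    (hR : ∀ A y : ℚ, y ^ 2 = A * (A - 9) * (A - 25) → A = 0 ∨ A = 9 ∨ A = 25 ∨ A = 45 ∨ A = 5)
    (c4 Δ : ℤ) (hΔ : Δ ≠ 0)
    (hss : ∀ p : ℕ, p.Prime → (p : ℤ) ∣ Δ → ¬ (p : ℤ) ∣ c4)
    (E2 a S c : ℚ) (hE2 : E2 ≠ 0) (h1 : c ^ 2 = a * (S ^ 2 + 4))
    (h2 : (2 + 24 * a) * S + (12 + 16 * a) * c + 3 * (1 - 4 * a) ^ 2 = 0)
    (h3 : (Δ : ℚ) = E2 ^ 3 * (S - 11)) (h4 : (c4 : ℚ) = E2 * (S ^ 2 - 12 * S + 16))
    (ha : 4 * a ≠ 1) : False := by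
  -- the key relation between `c4` and `Δ`
  have key : (c4 : ℚ) ^ 3 * (S - 11) = (Δ : ℚ) * (S ^ 2 - 12 * S + 16) ^ 3 := by
    rw [h3, h4]; ring
  have hS11 : S ≠ 11 := by
    intro h
    rw [h] at h3
    apply hΔ
    have : (Δ : ℚ) = 0 := by rw [h3]; ring
    exact_mod_cast this
  have fin : ∀ m n : ℤ, m * c4 ^ 3 = n * Δ → ¬ (5 : ℤ) ∣ m → (5 : ℤ) ∣ n → ¬ (125 : ℤ) ∣ n →
      False := by
    intro m n h hm h5 hn
    obtain ⟨k1, k2⟩ := five_dvd_of_eq c4 Δ m n h hm h5 hn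
    exact hss 5 (by norm_num) (by exact_mod_cast k2) (by exact_mod_cast k1)
  have hu : 12 + 16 * a ≠ 0 := by
    intro hu
    have ha' : a = -3 / 4 := by linear_combination hu / 16
    rw [ha'] at h1 h2
    have hS : S = 3 := by linear_combination (-1 / 16) * h2
    rw [hS] at h1
    nlinarith [sq_nonneg c]
  have h14 : 1 - 4 * a ≠ 0 := by
    intro h
    apply ha
    linear_combination (-1) * h
  -- the rational point
  have hN : ((a * (12 + 16 * a) ^ 2 - (2 + 24 * a) ^ 2) * S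
      - (2 + 24 * a) * (3 * (1 - 4 * a) ^ 2)) ^ 2
      = a * (12 + 16 * a) ^ 2 * (1 - 4 * a) ^ 3 * (25 - 36 * a) := by
    linear_combination (a * (12 + 16 * a) ^ 2 - (2 + 24 * a) ^ 2) *
      (((12 + 16 * a) * c - (2 + 24 * a) * S - 3 * (1 - 4 * a) ^ 2) * h2 - (12 + 16 * a) ^ 2 * h1)
  have hpt := hR (36 * a)
    (18 * ((a * (12 + 16 * a) ^ 2 - (2 + 24 * a) ^ 2) * S - (2 + 24 * a) * (3 * (1 - 4 * a) ^ 2))
      / ((12 + 16 * a) * (1 - 4 * a))) (by
    rw [div_pow, div_eq_iff (pow_ne_zero 2 (mul_ne_zero hu h14))]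
    linear_combination 324 * hN)
  have hc : c = -((2 + 24 * a) * S + 3 * (1 - 4 * a) ^ 2) / (12 + 16 * a) := by
    rw [eq_div_iff hu]
    linear_combination h2
  rcases hpt with h | h | h | h | h
  · -- a = 0
    have ha0 : a = 0 := by linear_combination h / 36
    rw [ha0] at hc h1
    rw [hc] at h1
    have hS : (2 * S + 3) ^ 2 = 0 := by linear_combination 144 * h1
    have hS' : S = -3 / 2 := by
      have := pow_eq_zero_iff (two_ne_zero) |>.1 hS
      linear_combination this / 2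
    rw [hS'] at key
    refine fin (-32) (5 * 29 ^ 3) ?_ (by norm_num) (by norm_num) (by norm_num)
    have : ((-32 : ℤ) : ℚ) * (c4 : ℚ) ^ 3 = ((5 * 29 ^ 3 : ℤ) : ℚ) * (Δ : ℚ) := by
      push_cast
      linear_combination (64 / 25) * key
    exact_mod_cast this
  · exact ha (by linear_combination h / 9)
  · -- a = 25/36
    have ha0 : a = 25 / 36 := by linear_combination h / 36
    rw [ha0] at hc h1
    rw [hc] at h1
    have hS : (8 * S - 63) ^ 2 = 0 := by
      linear_combination (-1521) * h1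
    have hS' : S = 63 / 8 := by
      have := pow_eq_zero_iff (two_ne_zero) |>.1 hS
      linear_combination this / 8
    rw [hS'] at key
    refine fin 32768 (5 * 211 ^ 3) ?_ (by norm_num) (by norm_num) (by norm_num)
    have : ((32768 : ℤ) : ℚ) * (c4 : ℚ) ^ 3 = ((5 * 211 ^ 3 : ℤ) : ℚ) * (Δ : ℚ) := by
      push_cast
      linear_combination (-262144 / 25) * key
    exact_mod_cast this
  · -- a = 5/4
    have ha0 : a = 5 / 4 := by linear_combination h / 36
    rw [ha0] at hc h1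
    rw [hc] at h1
    have hS : (S - 1) * (S - 11) = 0 := by
      linear_combination (-4) * h1
    have hS' : S = 1 := by
      rcases mul_eq_zero.1 hS with h' | h'
      · linear_combination h'
      · exact absurd (by linear_combination h') hS11
    rw [hS'] at key
    refine fin (-2) 25 ?_ (by norm_num) (by norm_num) (by norm_num)
    have : ((-2 : ℤ) : ℚ) * (c4 : ℚ) ^ 3 = ((25 : ℤ) : ℚ) * (Δ : ℚ) := by
      push_cast
      linear_combination (1 / 5) * key
    exact_mod_cast this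
  · -- a = 5/36
    have ha0 : a = 5 / 36 := by linear_combination h / 36
    rw [ha0] at hc h1
    rw [hc] at h1
    have hS : (S + 29) * (S - 11) = 0 := by
      linear_combination 576 * h1
    have hS' : S = -29 := by
      rcases mul_eq_zero.1 hS with h' | h'
      · linear_combination h'
      · exact absurd (by linear_combination h') hS11
    rw [hS'] at key
    refine fin (-8) (25 * 241 ^ 3) ?_ (by norm_num) (by norm_num) (by norm_num)
    have : ((-8 : ℤ) : ℚ) * (c4 : ℚ) ^ 3 = ((25 * 241 ^ 3 : ℤ) : ℚ) * (Δ : ℚ) := by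
      push_cast
      linear_combination (1 / 5) * key
    exact_mod_cast this

end FA51
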