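import Fermat.Agent.S51.Galois
import Fermat.Agent.S51.Algebra
import Fermat.Agent.S51.Endgame
import Fermat.Agent.X015.RatPoints

/-!
# S51: assembly
-/

set_option autoImplicit false

namespace FA51

open WeierstrassCurve WeierstrassCurve.Affine

theorem exists_stable_of_not_irreducible (W' : WeierstrassCurve.Affine ℚ) (n : ℕ)
    (hnt : ∃ P : (W'⁄(AlgebraicClosure ℚ)).Point, P ≠ 0 ∧ n • P = 0)
    (h : ¬ Affine.Point.GaloisRepIsIrreducible (K := AlgebraicClosure ℚ) ℚ W' n) :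
    ∃ N : Submodule (ZMod n) (Submodule.torsionBy ℤ (W'⁄(AlgebraicClosure ℚ)).Point n),
      Affine.Point.IsGaloisStable ℚ N ∧ N ≠ ⊥ ∧ N ≠ ⊤ := by
  by_contra hno
  apply h
  refine ⟨?_, fun N hN => ?_⟩
  · obtain ⟨P, hP, hnP⟩ := hnt
    refine ⟨⟨⟨P, ?_⟩, 0, ?_⟩⟩
    · rw [Submodule.mem_torsionBy_iff, natCast_zsmul]
      exact hnP
    · intro h0
      exact hP (congrArg Subtype.val h0)
  · by_contra hN'
    rw [not_or] at hN'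
    exact hno ⟨N, hN, hN'.1, hN'.2⟩

theorem core (W' : WeierstrassCurve.Affine ℚ) (c4 D : ℤ) (hc4 : W'.c₄ = (c4 : ℚ))
    (hD : W'.Δ = (D : ℚ)) (hD0 : D ≠ 0)
    (hss : ∀ p : ℕ, p.Prime → (p : ℤ) ∣ D → ¬ (p : ℤ) ∣ c4) :
    Affine.Point.GaloisRepIsIrreducible (K := AlgebraicClosure ℚ) ℚ W' 3 ∨
      Affine.Point.GaloisRepIsIrreducible (K := AlgebraicClosure ℚ) ℚ W' 5 := by
  have hΔ' : W'.Δ ≠ 0 := by
    rw [hD]
    exact_mod_cast hD0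
  have hΔK : (W'⁄(AlgebraicClosure ℚ)).Δ ≠ 0 := by
    change (W'.map (algebraMap ℚ (AlgebraicClosure ℚ))).Δ ≠ 0
    rw [WeierstrassCurve.map_Δ]
    simpa using hΔ'
  by_contra hcon
  rw [not_or] at hcon
  obtain ⟨h3, h5⟩ := hcon
  obtain ⟨N3, hst3, h30, h31⟩ :=
    exists_stable_of_not_irreducible W' 3 (exists_three_torsion hΔK) h3
  obtain ⟨N5, hst5, h50, h51⟩ :=
    exists_stable_of_not_irreducible W' 5 (exists_five_torsion hΔK) h5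
  obtain ⟨x0, hx0⟩ := line_three W' hΔ' N3 hst3 h30 h31
  obtain ⟨s1, s2, x1, x2, hs1, hs2, h12, hB1, hB2, H1, H2⟩ := line_five W' hΔ' N5 hst5 h50 h51
  have eb2 : (W'⁄(AlgebraicClosure ℚ)).b₂ = ((W'.b₂ : ℚ) : AlgebraicClosure ℚ) := by
    change (W'.map (algebraMap ℚ (AlgebraicClosure ℚ))).b₂ = _
    rw [WeierstrassCurve.map_b₂, eq_ratCast]
  have eb4 : (W'⁄(AlgebraicClosure ℚ)).b₄ = ((W'.b₄ : ℚ) : AlgebraicClosure ℚ) := by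
    change (W'.map (algebraMap ℚ (AlgebraicClosure ℚ))).b₄ = _
    rw [WeierstrassCurve.map_b₄, eq_ratCast]
  have eb6 : (W'⁄(AlgebraicClosure ℚ)).b₆ = ((W'.b₆ : ℚ) : AlgebraicClosure ℚ) := by
    change (W'.map (algebraMap ℚ (AlgebraicClosure ℚ))).b₆ = _
    rw [WeierstrassCurve.map_b₆, eq_ratCast]
  have eb8 : (W'⁄(AlgebraicClosure ℚ)).b₈ = ((W'.b₈ : ℚ) : AlgebraicClosure ℚ) := by
    change (W'.map (algebraMap ℚ (AlgebraicClosure ℚ))).b₈ = _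
    rw [WeierstrassCurve.map_b₈, eq_ratCast]
  unfold Bf at hB1 hB2 H1 H2
  unfold Af at H1 H2
  rw [eb2, eb4, eb6] at hB1 hB2 H1 H2
  rw [eb8] at H1 H2
  unfold T3f at hx0
  obtain ⟨r1, r2, r3, r4, r5, r6⟩ := algebra_core (K := AlgebraicClosure ℚ)
    (W'.b₂ : ℚ) (W'.b₄ : ℚ) (W'.b₆ : ℚ) (W'.b₈ : ℚ) (x0 : ℚ) x1 x2
    (by exact_mod_cast W'.b_relation) h12 hB1 hB2 H1 H2 (by exact_mod_cast hx0)
    (s1 : ℚ) (s2 : ℚ) ((s1 ^ 2 - 4 * s2 : ℚ) : ℚ)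
    (((2 * x0 - s1) ^ 2 / (4 * (s1 ^ 2 - 4 * s2)) : ℚ) : ℚ)
    (((4 * (s1 ^ 2 - s2) + W'.b₂ * s1 + 2 * W'.b₄) / (s1 ^ 2 - 4 * s2) : ℚ) : ℚ)
    (((2 * x0 - s1) * (4 * (s1 ^ 3 - 3 * s1 * s2) + W'.b₂ * (s1 ^ 2 - 2 * s2) + 2 * W'.b₄ * s1
      + 2 * W'.b₆) / (2 * (s1 ^ 2 - 4 * s2) ^ 2) : ℚ) : ℚ)
    hs1.symm hs2.symm (by push_cast; ring) (by push_cast; ring) (by push_cast; ring)
    (by push_cast; ring)
  have hΔq : (D : ℚ) = -W'.b₂ ^ 2 * W'.b₈ - 8 * W'.b₄ ^ 3 - 27 * W'.b₆ ^ 2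
      + 9 * W'.b₂ * W'.b₄ * W'.b₆ := by
    rw [← hD, WeierstrassCurve.Δ]
  have hc4q : (c4 : ℚ) = W'.b₂ ^ 2 - 24 * W'.b₄ := by
    rw [← hc4, WeierstrassCurve.c₄]
  refine endgame_of FAX015.ratPoints c4 D hD0 hss _ _ _ _ (by exact_mod_cast r1) (by exact_mod_cast r2)
    (by exact_mod_cast r3) ?_ ?_ (by exact_mod_cast r6)
  · rw [hΔq]; exact_mod_cast r4
  · rw [hc4q]; exact_mod_cast r5

end FA51
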