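import Fermat.Agent.S51.Torsion5

/-!
# S51, P4: `#E[3] ≤ 9`, `#E[5] ≤ 33`; proper nonzero submodules are lines
-/

set_option autoImplicit false

namespace FA51

open WeierstrassCurve WeierstrassCurve.Affine Polynomial

section Count

variable {K : Type*} [Field K] {W : WeierstrassCurve.Affine K}

/-- coordinates of a point. -/
def toOpt : W.Point → Option (K × K)
  | .zero => none
  | .some x y _ => some (x, y)

theorem toOpt_injective : Function.Injective (toOpt (W := W)) := by
  rintro (_ | ⟨x₁, y₁, h₁⟩) (_ | ⟨x₂, y₂, h₂⟩) h <;>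
    simp only [toOpt, Option.some.injEq, Prod.mk.injEq, reduceCtorEq] at h
  · rfl
  · obtain ⟨rfl, rfl⟩ := h; rfl

/-- the quadratic polynomial satisfied by the `y`-coordinates above `x`. -/
noncomputable def quadY (W : WeierstrassCurve.Affine K) (x : K) : K[X] :=
  C 1 * X ^ 2 + C (W.a₁ * x + W.a₃) * X + C (-(x ^ 3 + W.a₂ * x ^ 2 + W.a₄ * x + W.a₆))

theorem quadY_ne_zero (x : K) : quadY W x ≠ 0 := by
  intro h
  have := Polynomial.degree_quadratic (R := K) (a := 1) (b := W.a₁ * x + W.a₃)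
    (c := -(x ^ 3 + W.a₂ * x ^ 2 + W.a₄ * x + W.a₆)) one_ne_zero
  unfold quadY at h
  rw [h, degree_zero] at this
  exact absurd this (by decide)

theorem card_roots_quadY (x : K) : Multiset.card (quadY W x).roots ≤ 2 :=
  (Polynomial.card_roots' _).trans Polynomial.natDegree_quadratic_le

theorem card_le_of_xc_mem (R : Finset K) (S : Set W.Point)
    (h : ∀ P ∈ S, P ≠ 0 → xc P ∈ R) : S.Finite ∧ S.ncard ≤ 2 * R.card + 1 := by
  classical
  let T : Finset (K × K) := R.biUnion fun x => ((quadY W x).roots.toFinset).image (Prod.mk x)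
  have hT : T.card ≤ R.card * 2 := by
    refine Finset.card_biUnion_le_card_mul _ _ _ fun x _ => ?_
    exact Finset.card_image_le.trans ((Multiset.toFinset_card_le _).trans (card_roots_quadY x))
  have hsub : toOpt '' S ⊆ ↑(Finset.insertNone T) := by
    rintro _ ⟨P, hP, rfl⟩
    rcases P with _ | ⟨x, y, hxy⟩
    · simp [toOpt]
    · have hx : x ∈ R := h _ hP (Point.some_ne_zero _)
      rw [Finset.mem_coe]
      change some (x, y) ∈ Finset.insertNone T
      rw [Finset.some_mem_insertNone]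
      refine Finset.mem_biUnion.2 ⟨x, hx, Finset.mem_image.2 ⟨y, ?_, rfl⟩⟩
      rw [Multiset.mem_toFinset, Polynomial.mem_roots (quadY_ne_zero x), Polynomial.IsRoot.def]
      have := (Affine.equation_iff _ _).1 hxy.1
      unfold quadY
      simp only [eval_add, eval_mul, eval_C, eval_pow, eval_X]
      linear_combination this
  have hfin : (toOpt '' S).Finite := (Finset.finite_toSet _).subset hsub
  have hSfin : S.Finite := hfin.of_finite_image toOpt_injective.injOn
  refine ⟨hSfin, ?_⟩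
  rw [← Set.ncard_image_of_injective S toOpt_injective]
  calc (toOpt '' S).ncard ≤ (↑(Finset.insertNone T) : Set (Option (K × K))).ncard :=
        Set.ncard_le_ncard hsub (Finset.finite_toSet _)
    _ = (Finset.insertNone T).card := Set.ncard_coe_finset _
    _ = T.card + 1 := Finset.card_insertNone T
    _ ≤ 2 * R.card + 1 := by omega

theorem eval_Ψ₃ (x : K) : W.Ψ₃.eval x = T3f W x := by
  rw [WeierstrassCurve.Ψ₃]
  simp only [Polynomial.eval_add, Polynomial.eval_mul, Polynomial.eval_pow, Polynomial.eval_X,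
    Polynomial.eval_C, Polynomial.eval_ofNat]
  rfl

theorem eval_preΨ'_five (x : K) : (W.preΨ' 5).eval x = T5f W x := by
  rw [show 5 = 2 * (0 + 2) + 1 by rfl, WeierstrassCurve.preΨ'_odd]
  simp only [zero_add, WeierstrassCurve.preΨ'_four, WeierstrassCurve.preΨ'_two,
    WeierstrassCurve.preΨ'_one, WeierstrassCurve.preΨ'_three, Even.zero, if_true,
    WeierstrassCurve.preΨ₄, WeierstrassCurve.Ψ₃, WeierstrassCurve.Ψ₂Sq,
    Polynomial.eval_add, Polynomial.eval_sub, Polynomial.eval_mul, Polynomial.eval_pow,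
    Polynomial.eval_X, Polynomial.eval_C, Polynomial.eval_ofNat, Polynomial.eval_one]
  unfold T5f P4f Bf T3f
  ring

variable [DecidableEq K]

theorem card_three_torsion [CharZero K] :
    Finite (Submodule.torsionBy ℤ W.Point (3 : ℕ)) ∧
      Nat.card (Submodule.torsionBy ℤ W.Point (3 : ℕ)) ≤ 9 := by
  classical
  have h3 : W.Ψ₃ ≠ 0 := W.Ψ₃_ne_zero (by norm_num)
  obtain ⟨hfin, hcard⟩ := card_le_of_xc_mem (W := W) W.Ψ₃.roots.toFinset
    (Submodule.torsionBy ℤ W.Point (3 : ℕ) : Set W.Point) (by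
      intro P hP hP0
      rw [SetLike.mem_coe, Submodule.mem_torsionBy_iff, natCast_zsmul] at hP
      rw [Multiset.mem_toFinset, Polynomial.mem_roots h3, Polynomial.IsRoot.def, eval_Ψ₃]
      exact T3f_of_three_nsmul hP0 hP)
  refine ⟨hfin.to_subtype, ?_⟩
  have hR : W.Ψ₃.roots.toFinset.card ≤ 4 :=
    (Multiset.toFinset_card_le _).trans ((Polynomial.card_roots' _).trans W.natDegree_Ψ₃_le)
  have : Nat.card (Submodule.torsionBy ℤ W.Point (3 : ℕ)) =
      (Submodule.torsionBy ℤ W.Point (3 : ℕ) : Set W.Point).ncard := Nat.card_coe_set_eq _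
  rw [this]
  omega

theorem T5f_mul_T3f_of_five_nsmul {P : W.Point} (hP : P ≠ 0) (h5 : 5 • P = 0) :
    T5f W (xc P) * T3f W (xc P) = 0 := by
  obtain ⟨-, -, hB1, -, H1, H2⟩ := five_torsion_relations hP h5
  have hBd := Bf_dup W H1
  have hAd := Af_dup W H1
  rw [← H2] at hAd
  linear_combination hAd - xc P * Bf W (xc P) * hBd

theorem card_five_torsion [CharZero K] :
    Finite (Submodule.torsionBy ℤ W.Point (5 : ℕ)) ∧
      Nat.card (Submodule.torsionBy ℤ W.Point (5 : ℕ)) ≤ 33 := by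
  classical
  have h3 : W.Ψ₃ ≠ 0 := W.Ψ₃_ne_zero (by norm_num)
  have h5 : W.preΨ' 5 ≠ 0 := W.preΨ'_ne_zero (by norm_num)
  have h15 : W.preΨ' 5 * W.Ψ₃ ≠ 0 := mul_ne_zero h5 h3
  obtain ⟨hfin, hcard⟩ := card_le_of_xc_mem (W := W) (W.preΨ' 5 * W.Ψ₃).roots.toFinset
    (Submodule.torsionBy ℤ W.Point (5 : ℕ) : Set W.Point) (by
      intro P hP hP0
      rw [SetLike.mem_coe, Submodule.mem_torsionBy_iff, natCast_zsmul] at hP
      rw [Multiset.mem_toFinset, Polynomial.mem_roots h15, Polynomial.IsRoot.def, eval_mul,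
        eval_Ψ₃, eval_preΨ'_five]
      exact T5f_mul_T3f_of_five_nsmul hP0 hP)
  refine ⟨hfin.to_subtype, ?_⟩
  have hdeg : (W.preΨ' 5 * W.Ψ₃).natDegree ≤ 16 := by
    refine Polynomial.natDegree_mul_le.trans ?_
    have h1 := W.natDegree_preΨ'_le 5
    have h2 := W.natDegree_Ψ₃_le
    have h3 : (5 ^ 2 - if Even 5 then 4 else 1) / 2 = 12 := by decide
    rw [h3] at h1
    omega
  have hR : (W.preΨ' 5 * W.Ψ₃).roots.toFinset.card ≤ 16 :=
    (Multiset.toFinset_card_le _).trans ((Polynomial.card_roots' _).trans hdeg)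
  have : Nat.card (Submodule.torsionBy ℤ W.Point (5 : ℕ)) =
      (Submodule.torsionBy ℤ W.Point (5 : ℕ) : Set W.Point).ncard := Nat.card_coe_set_eq _
  rw [this]
  omega

end Count

/-- abstract linear algebra -/
theorem exists_generator_of_card_lt (p : ℕ) [Fact p.Prime] (V : Type*) [AddCommGroup V]
    [Module (ZMod p) V] [Finite V] (hcard : Nat.card V < p ^ 3) (N : Submodule (ZMod p) V)
    (h0 : N ≠ ⊥) (h1 : N ≠ ⊤) : ∃ P ∈ N, P ≠ 0 ∧ ∀ Q ∈ N, ∃ k : ℕ, Q = k • P := by
  have hp : p.Prime := Fact.out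
  have _ : Module.Finite (ZMod p) V := Module.Finite.of_finite
  have hV : Module.finrank (ZMod p) V < 3 := by
    have h := Module.natCard_eq_pow_finrank (K := ZMod p) (V := V)
    rw [Nat.card_zmod] at h
    rw [h] at hcard
    exact (Nat.pow_lt_pow_iff_right hp.one_lt).1 hcard
  have hN : Module.finrank (ZMod p) N < Module.finrank (ZMod p) V := Submodule.finrank_lt h1
  have hN0 : 0 < Module.finrank (ZMod p) N := by
    rw [Module.finrank_pos_iff, Submodule.nontrivial_iff_ne_bot]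
    exact h0
  have hN1 : Module.finrank (ZMod p) N = 1 := by omega
  obtain ⟨P, hPN, hP0⟩ := Submodule.exists_mem_ne_zero_of_ne_bot h0
  refine ⟨P, hPN, hP0, fun Q hQ => ?_⟩
  have hP0' : (⟨P, hPN⟩ : N) ≠ 0 := fun h => hP0 (congrArg Subtype.val h)
  obtain ⟨c, hc⟩ := (finrank_eq_one_iff_of_nonzero' (⟨P, hPN⟩ : N) hP0').1 hN1 ⟨Q, hQ⟩
  refine ⟨c.val, ?_⟩
  have h2 : c • P = Q := congrArg Subtype.val hc
  rw [← h2, ← Nat.cast_smul_eq_nsmul (ZMod p), ZMod.natCast_zmod_val]

end FA51
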