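import Mathlib
import Fermat.Prelude.Def_FLTPrelim_GaloisRep

/-!
# S51: definitions (duplication polynomials and the x-coordinate function)
-/

set_option autoImplicit false

namespace FA51

open WeierstrassCurve

variable {K : Type*} [Field K]

/-- Numerator of the duplication formula `x(2P) = Af(x) / Bf(x)`. -/
def Af (W : WeierstrassCurve K) (x : K) : K := x ^ 4 - W.b₄ * x ^ 2 - 2 * W.b₆ * x - W.b₈

/-- Denominator of the duplication formula (`= ψ₂²`). -/
def Bf (W : WeierstrassCurve K) (x : K) : K := 4 * x ^ 3 + W.b₂ * x ^ 2 + 2 * W.b₄ * x + W.b₆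

/-- The 3-division polynomial `ψ₃ = x * Bf - Af`. -/
def T3f (W : WeierstrassCurve K) (x : K) : K :=
  3 * x ^ 4 + W.b₂ * x ^ 3 + 3 * W.b₄ * x ^ 2 + 3 * W.b₆ * x + W.b₈

/-- The `x`-coordinate of a point (junk value `0` at the origin). -/
def xc {W : WeierstrassCurve.Affine K} : W.Point → K
  | .zero => 0
  | .some x _ _ => x

end FA51
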