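import Fermat.Agent.S51.Defs

/-!
# S51, P1: x-coordinate API and the duplication formula
-/

set_option autoImplicit false

namespace FA51

open WeierstrassCurve WeierstrassCurve.Affine

section P1

variable {K : Type*} [Field K]

theorem bezout (W : WeierstrassCurve K) (x : K) :
    (-48 * x ^ 2 - 8 * W.b₂ * x + W.b₂ ^ 2 - 32 * W.b₄) * Af W x +
      (12 * x ^ 3 - W.b₂ * x ^ 2 - 10 * W.b₄ * x + W.b₂ * W.b₄ - 27 * W.b₆) * Bf W x = W.Δ := by
  unfold Af Bf
  rw [WeierstrassCurve.Δ]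
  linear_combination (12 * x ^ 2 + 2 * W.b₂ * x + 8 * W.b₄) * W.b_relation

theorem T3f_eq (W : WeierstrassCurve K) (x : K) : T3f W x = x * Bf W x - Af W x := by
  unfold T3f Af Bf
  ring

variable {W : WeierstrassCurve.Affine K}

@[simp] theorem xc_some {x y : K} (h : W.Nonsingular x y) : xc (Point.some x y h) = x := rfl

theorem xc_neg (P : W.Point) : xc (-P) = xc P := by
  cases P <;> rfl

/-- `(y - negY)² = Bf(x)` on the curve. -/
theorem sub_negY_sq {x y : K} (h : W.Equation x y) : (y - W.negY x y) ^ 2 = Bf W x := by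
  rw [Affine.equation_iff] at h
  unfold Bf
  rw [Affine.negY, WeierstrassCurve.b₂, WeierstrassCurve.b₄, WeierstrassCurve.b₆]
  linear_combination 4 * h

theorem exists_point [IsAlgClosed K] (hΔ : W.Δ ≠ 0) (x : K) : ∃ P : W.Point, P ≠ 0 ∧ xc P = x := by
  obtain ⟨y, hy⟩ := IsAlgClosed.exists_root
    (Polynomial.X ^ 2 + Polynomial.C (W.a₁ * x + W.a₃) * Polynomial.X
      - Polynomial.C (x ^ 3 + W.a₂ * x ^ 2 + W.a₄ * x + W.a₆) : Polynomial K) (by
      have : (Polynomial.X ^ 2 + Polynomial.C (W.a₁ * x + W.a₃) * Polynomial.X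
          - Polynomial.C (x ^ 3 + W.a₂ * x ^ 2 + W.a₄ * x + W.a₆) : Polynomial K) =
          Polynomial.C 1 * Polynomial.X ^ 2 + Polynomial.C (W.a₁ * x + W.a₃) * Polynomial.X
          + Polynomial.C (-(x ^ 3 + W.a₂ * x ^ 2 + W.a₄ * x + W.a₆)) := by
        simp [sub_eq_add_neg]
      rw [this, Polynomial.degree_quadratic one_ne_zero]
      decide)
  have heq : W.Equation x y := by
    rw [Affine.equation_iff]
    simp only [Polynomial.IsRoot.def, Polynomial.eval_sub, Polynomial.eval_add,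
      Polynomial.eval_pow, Polynomial.eval_X, Polynomial.eval_mul, Polynomial.eval_C] at hy
    linear_combination hy
  exact ⟨Point.some x y ((Affine.equation_iff_nonsingular_of_Δ_ne_zero hΔ).1 heq),
    Point.some_ne_zero _, rfl⟩

theorem xc_eq_iff {P Q : W.Point} (hP : P ≠ 0) (hQ : Q ≠ 0) : xc P = xc Q ↔ P = Q ∨ P = -Q := by
  rcases P with _ | ⟨x₁, y₁, h₁⟩
  · exact absurd rfl hP
  rcases Q with _ | ⟨x₂, y₂, h₂⟩
  · exact absurd rfl hQ
  exact Point.X_eq_iff

variable [DecidableEq K]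

theorem two_nsmul_eq_zero_iff {P : W.Point} (hP : P ≠ 0) : 2 • P = 0 ↔ Bf W (xc P) = 0 := by
  rcases P with _ | ⟨x, y, h⟩
  · exact absurd rfl hP
  rw [two_nsmul, xc_some, ← sub_negY_sq h.1, pow_eq_zero_iff two_ne_zero, sub_eq_zero]
  constructor
  · intro h2
    by_contra hy
    rw [Point.add_self_of_Y_ne hy] at h2
    exact Point.some_ne_zero _ h2
  · intro hy
    exact Point.add_self_of_Y_eq hy

theorem xc_two_nsmul {P : W.Point} (hP : P ≠ 0) (h2 : 2 • P ≠ 0) :
    xc (2 • P) * Bf W (xc P) = Af W (xc P) := by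
  rcases P with _ | ⟨x, y, h⟩
  · exact absurd rfl hP
  have hy : y ≠ W.negY x y := by
    intro hy
    apply h2
    rw [two_nsmul]
    exact Point.add_self_of_Y_eq hy
  rw [two_nsmul, Point.add_self_of_Y_ne hy, xc_some, xc_some, ← sub_negY_sq h.1,
    Affine.slope_of_Y_ne rfl hy, Affine.addX]
  have hne : y - W.negY x y ≠ 0 := sub_ne_zero.2 hy
  have heq := (Affine.equation_iff _ _).1 h.1
  unfold Af
  rw [WeierstrassCurve.b₄, WeierstrassCurve.b₆, WeierstrassCurve.b₈]
  field_simp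
  rw [Affine.negY]
  linear_combination (-(W.a₁ ^ 2 + 4 * W.a₂ + 8 * x)) * heq

end P1

theorem xc_smul (W' : WeierstrassCurve.Affine ℚ)
    (σ : AlgebraicClosure ℚ ≃ₐ[ℚ] AlgebraicClosure ℚ)
    (P : (W'⁄(AlgebraicClosure ℚ)).Point) : xc (σ • P) = σ (xc P) := by
  rcases P with _ | ⟨x, y, h⟩
  · exact (map_zero σ).symm
  · rfl

end FA51
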