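import Fermat.Agent.S51.Count

/-!
# S51, P5: Galois stable lines give rational data
-/

set_option autoImplicit false

namespace FA51

open WeierstrassCurve WeierstrassCurve.Affine

section Group

variable {K : Type*} [Field K] [DecidableEq K] {W : WeierstrassCurve.Affine K}

theorem xc_nsmul_three {P : W.Point} (h3 : 3 • P = 0) (k : ℕ) (hk : k • P ≠ 0) :
    xc (k • P) = xc P := by
  have hk' : k • P = (k % 3) • P := by
    conv_lhs => rw [← Nat.div_add_mod k 3, add_nsmul, mul_nsmul, h3, nsmul_zero, zero_add]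
  rw [hk'] at hk ⊢
  have : k % 3 < 3 := Nat.mod_lt _ (by norm_num)
  interval_cases (k % 3)
  · exact absurd (zero_nsmul P) hk
  · rw [one_nsmul]
  · have : 2 • P = -P := by
      rw [eq_neg_iff_add_eq_zero, ← h3, succ_nsmul P 2]
    rw [this, xc_neg]

theorem xc_nsmul_five {P : W.Point} (h5 : 5 • P = 0) (k : ℕ) (hk : k • P ≠ 0) :
    (xc (k • P) = xc P ∧ xc (2 • (k • P)) = xc (2 • P)) ∨
      (xc (k • P) = xc (2 • P) ∧ xc (2 • (k • P)) = xc P) := by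
  have hk' : k • P = (k % 5) • P := by
    conv_lhs => rw [← Nat.div_add_mod k 5, add_nsmul, mul_nsmul, h5, nsmul_zero, zero_add]
  rw [hk'] at hk ⊢
  have : k % 5 < 5 := Nat.mod_lt _ (by norm_num)
  have h4 : 4 • P = -P := by
    rw [eq_neg_iff_add_eq_zero, ← h5, succ_nsmul P 4]
  have h3 : (3 : ℕ) • P = -((2 : ℕ) • P) := by
    rw [eq_neg_iff_add_eq_zero, ← add_nsmul]
    exact h5
  interval_cases (k % 5)
  · exact absurd (zero_nsmul P) hk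
  · left
    rw [one_nsmul]
    exact ⟨rfl, rfl⟩
  · right
    refine ⟨rfl, ?_⟩
    rw [← mul_nsmul, show 2 * 2 = 4 by norm_num, h4, xc_neg]
  · right
    refine ⟨by rw [h3, xc_neg], ?_⟩
    have : 2 • (3 • P) = P := by
      rw [← mul_nsmul, show 3 * 2 = 5 + 1 by norm_num, add_nsmul, h5, zero_add, one_nsmul]
    rw [this]
  · left
    refine ⟨by rw [h4, xc_neg], ?_⟩
    rw [h4, smul_neg, xc_neg]

end Group

section P5

variable (W' : WeierstrassCurve.Affine ℚ)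

local notation "Kb" => AlgebraicClosure ℚ

theorem smul_nsmul_point (σ : Kb ≃ₐ[ℚ] Kb) (k : ℕ) (P : (W'⁄Kb).Point) :
    σ • (k • P) = k • (σ • P) :=
  (Point.map σ.toAlgHom).map_nsmul k P

theorem exists_rat_of_fixed (x : Kb) (h : ∀ σ : Kb ≃ₐ[ℚ] Kb, σ x = x) : ∃ q : ℚ, (q : Kb) = x := by
  have _ : Algebra.IsAlgebraic ℚ Kb := AlgebraicClosure.isAlgebraic ℚ
  have _ : IsAlgClosure ℚ Kb := ⟨inferInstance, inferInstance⟩
  have _ : IsGalois ℚ Kb := IsAlgClosure.isGalois ℚ Kb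
  obtain ⟨q, hq⟩ := (InfiniteGalois.mem_range_algebraMap_iff_fixed (k := ℚ) (K := Kb) x).2 h
  exact ⟨q, by rw [← hq, eq_ratCast]⟩

theorem baseChange_b₂ : (W'⁄Kb).b₂ = ((W'.b₂ : ℚ) : Kb) := by
  change (W'.map (algebraMap ℚ Kb)).b₂ = _
  rw [WeierstrassCurve.map_b₂, eq_ratCast]

theorem baseChange_b₄ : (W'⁄Kb).b₄ = ((W'.b₄ : ℚ) : Kb) := by
  change (W'.map (algebraMap ℚ Kb)).b₄ = _
  rw [WeierstrassCurve.map_b₄, eq_ratCast]

theorem baseChange_b₆ : (W'⁄Kb).b₆ = ((W'.b₆ : ℚ) : Kb) := by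
  change (W'.map (algebraMap ℚ Kb)).b₆ = _
  rw [WeierstrassCurve.map_b₆, eq_ratCast]

theorem baseChange_b₈ : (W'⁄Kb).b₈ = ((W'.b₈ : ℚ) : Kb) := by
  change (W'.map (algebraMap ℚ Kb)).b₈ = _
  rw [WeierstrassCurve.map_b₈, eq_ratCast]

/-- A stable proper nonzero submodule is generated by a point whose Galois conjugates are
multiples of it. -/
theorem exists_line_generator (p : ℕ) [Fact p.Prime]
    (hcard : Finite (Submodule.torsionBy ℤ (W'⁄Kb).Point (p : ℕ)) ∧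
      Nat.card (Submodule.torsionBy ℤ (W'⁄Kb).Point (p : ℕ)) < p ^ 3)
    (N : Submodule (ZMod p) (Submodule.torsionBy ℤ (W'⁄Kb).Point (p : ℕ)))
    (hst : Affine.Point.IsGaloisStable ℚ N) (h0 : N ≠ ⊥) (h1 : N ≠ ⊤) :
    ∃ P : (W'⁄Kb).Point, P ≠ 0 ∧ p • P = 0 ∧ ∀ σ : Kb ≃ₐ[ℚ] Kb, ∃ k : ℕ, σ • P = k • P := by
  have _ := hcard.1
  obtain ⟨P, hPN, hP0, hgen⟩ := exists_generator_of_card_lt p _ hcard.2 N h0 h1
  refine ⟨P.1, fun h => hP0 (Subtype.ext h), ?_, fun σ => ?_⟩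
  · have := P.2
    rwa [Submodule.mem_torsionBy_iff, natCast_zsmul] at this
  · obtain ⟨k, hk⟩ := hgen (σ • P) (hst σ P hPN)
    refine ⟨k, ?_⟩
    have := congrArg Subtype.val hk
    rw [AddSubmonoidClass.coe_nsmul] at this
    exact this

theorem line_three (_hΔ : W'.Δ ≠ 0)
    (N : Submodule (ZMod 3) (Submodule.torsionBy ℤ (W'⁄(AlgebraicClosure ℚ)).Point (3 : ℕ)))
    (hst : Affine.Point.IsGaloisStable ℚ N) (h0 : N ≠ ⊥) (h1 : N ≠ ⊤) :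
    ∃ x0 : ℚ, T3f W' x0 = 0 := by
  obtain ⟨hf, hc⟩ := card_three_torsion (W := (W'⁄Kb))
  obtain ⟨P, hP0, h3, hσ⟩ := exists_line_generator W' 3 ⟨hf, by omega⟩ N hst h0 h1
  obtain ⟨x0, hx0⟩ := exists_rat_of_fixed (xc P) (by
    intro σ
    obtain ⟨k, hk⟩ := hσ σ
    rw [← xc_smul, hk]
    apply xc_nsmul_three h3
    rw [← hk]
    exact (smul_eq_zero_iff_eq σ).not.2 hP0)
  refine ⟨x0, ?_⟩
  have h := T3f_of_three_nsmul hP0 h3
  unfold T3f at h ⊢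
  rw [← hx0, baseChange_b₂, baseChange_b₄, baseChange_b₆, baseChange_b₈] at h
  exact_mod_cast h

theorem line_five (_hΔ : W'.Δ ≠ 0)
    (N : Submodule (ZMod 5) (Submodule.torsionBy ℤ (W'⁄(AlgebraicClosure ℚ)).Point (5 : ℕ)))
    (hst : Affine.Point.IsGaloisStable ℚ N) (h0 : N ≠ ⊥) (h1 : N ≠ ⊤) :
    ∃ (s1 s2 : ℚ) (x1 x2 : AlgebraicClosure ℚ), x1 + x2 = (s1 : AlgebraicClosure ℚ) ∧
      x1 * x2 = (s2 : AlgebraicClosure ℚ) ∧ x1 ≠ x2 ∧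
      Bf (W'⁄(AlgebraicClosure ℚ)) x1 ≠ 0 ∧ Bf (W'⁄(AlgebraicClosure ℚ)) x2 ≠ 0 ∧
      x2 * Bf (W'⁄(AlgebraicClosure ℚ)) x1 = Af (W'⁄(AlgebraicClosure ℚ)) x1 ∧
      x1 * Bf (W'⁄(AlgebraicClosure ℚ)) x2 = Af (W'⁄(AlgebraicClosure ℚ)) x2 := by
  have _ : Fact (Nat.Prime 5) := ⟨by norm_num⟩
  obtain ⟨hf, hc⟩ := card_five_torsion (W := (W'⁄Kb))
  obtain ⟨P, hP0, h5, hσ⟩ := exists_line_generator W' 5 ⟨hf, by omega⟩ N hst h0 h1
  have key : ∀ σ : Kb ≃ₐ[ℚ] Kb, (σ (xc P) = xc P ∧ σ (xc (2 • P)) = xc (2 • P)) ∨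
      (σ (xc P) = xc (2 • P) ∧ σ (xc (2 • P)) = xc P) := by
    intro σ
    obtain ⟨k, hk⟩ := hσ σ
    rw [← xc_smul, ← xc_smul, smul_nsmul_point, hk]
    apply xc_nsmul_five h5
    rw [← hk]
    exact (smul_eq_zero_iff_eq σ).not.2 hP0
  obtain ⟨s1, hs1⟩ := exists_rat_of_fixed (xc P + xc (2 • P)) (by
    intro σ
    rcases key σ with ⟨e1, e2⟩ | ⟨e1, e2⟩
    · rw [map_add, e1, e2]
    · rw [map_add, e1, e2, add_comm])
  obtain ⟨s2, hs2⟩ := exists_rat_of_fixed (xc P * xc (2 • P)) (by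
    intro σ
    rcases key σ with ⟨e1, e2⟩ | ⟨e1, e2⟩
    · rw [map_mul, e1, e2]
    · rw [map_mul, e1, e2, mul_comm])
  obtain ⟨-, r2, r3, r4, r5, r6⟩ := five_torsion_relations hP0 h5
  exact ⟨s1, s2, xc P, xc (2 • P), hs1.symm, hs2.symm, r2, r3, r4, r5, r6⟩

end P5

end FA51
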