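import Fermat.Agent.S51.Dup

/-!
# S51, P2: 3-torsion
-/

set_option autoImplicit false

namespace FA51

open WeierstrassCurve WeierstrassCurve.Affine

section P2

variable {K : Type*} [Field K] [DecidableEq K] {W : WeierstrassCurve.Affine K}

theorem T3f_of_three_nsmul {P : W.Point} (hP : P ≠ 0) (h3 : 3 • P = 0) : T3f W (xc P) = 0 := by
  have h2 : 2 • P = -P := by
    rw [eq_neg_iff_add_eq_zero, ← h3, succ_nsmul P 2]
  have h2' : 2 • P ≠ 0 := by
    rw [h2]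
    exact neg_ne_zero.mpr hP
  have h := xc_two_nsmul hP h2'
  rw [h2, xc_neg] at h
  rw [T3f_eq, h, sub_self]

omit [DecidableEq K] in
theorem Bf_ne_zero_of_T3f (hΔ : W.Δ ≠ 0) {x : K} (h : T3f W x = 0) : Bf W x ≠ 0 := by
  intro hB
  rw [T3f_eq, hB, mul_zero, zero_sub, neg_eq_zero] at h
  apply hΔ
  rw [← bezout W x, h, hB, mul_zero, mul_zero, add_zero]

theorem three_nsmul_of_T3f (hΔ : W.Δ ≠ 0) {P : W.Point} (hP : P ≠ 0) (h : T3f W (xc P) = 0) :
    3 • P = 0 := by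
  have hB : Bf W (xc P) ≠ 0 := Bf_ne_zero_of_T3f hΔ h
  have h2 : 2 • P ≠ 0 := fun h2 => hB ((two_nsmul_eq_zero_iff hP).mp h2)
  have hx := xc_two_nsmul hP h2
  rw [T3f_eq, sub_eq_zero] at h
  rw [← h] at hx
  have hx' : xc (2 • P) = xc P := mul_right_cancel₀ hB hx
  rcases (xc_eq_iff h2 hP).mp hx' with h' | h'
  · exfalso
    apply hP
    rw [two_nsmul] at h'
    exact left_eq_add.mp h'.symm
  · rw [succ_nsmul P 2, h', neg_add_cancel]

theorem exists_three_torsion [IsAlgClosed K] [CharZero K] (hΔ : W.Δ ≠ 0) :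
    ∃ P : W.Point, P ≠ 0 ∧ 3 • P = 0 := by
  obtain ⟨x, hx⟩ := IsAlgClosed.exists_root W.Ψ₃ (by
    rw [Polynomial.degree_eq_natDegree (W.Ψ₃_ne_zero (by norm_num)),
      W.natDegree_Ψ₃ (by norm_num)]
    norm_num)
  obtain ⟨P, hP, rfl⟩ := exists_point hΔ x
  refine ⟨P, hP, three_nsmul_of_T3f hΔ hP ?_⟩
  rw [Polynomial.IsRoot.def, WeierstrassCurve.Ψ₃] at hx
  simp only [Polynomial.eval_add, Polynomial.eval_mul, Polynomial.eval_pow, Polynomial.eval_X,
    Polynomial.eval_C, Polynomial.eval_ofNat] at hx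
  unfold T3f
  linear_combination hx

end P2

end FA51
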