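import Fermat.Agent.S51.Torsion3

/-!
# S51, P3: 5-torsion
-/

set_option autoImplicit false

namespace FA51

open WeierstrassCurve WeierstrassCurve.Affine

section P3

variable {K : Type*} [Field K]

/-- `preΨ₄` as a function. -/
def P4f (W : WeierstrassCurve K) (x : K) : K :=
  2 * x ^ 6 + W.b₂ * x ^ 5 + 5 * W.b₄ * x ^ 4 + 10 * W.b₆ * x ^ 3 + 10 * W.b₈ * x ^ 2 +
    (W.b₂ * W.b₈ - W.b₄ * W.b₆) * x + (W.b₄ * W.b₈ - W.b₆ ^ 2)

/-- the 5-division polynomial as a function. -/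
def T5f (W : WeierstrassCurve K) (x : K) : K := P4f W x * Bf W x ^ 2 - T3f W x ^ 3

theorem Bf_dup (W : WeierstrassCurve K) {x x₂ : K} (h : x₂ * Bf W x = Af W x) :
    Bf W x₂ * Bf W x ^ 3 = P4f W x ^ 2 := by
  have h1 : Bf W x₂ * Bf W x ^ 3 = 4 * (x₂ * Bf W x) ^ 3 + W.b₂ * (x₂ * Bf W x) ^ 2 * Bf W x +
      2 * W.b₄ * (x₂ * Bf W x) * Bf W x ^ 2 + W.b₆ * Bf W x ^ 3 := by
    generalize Bf W x = B
    unfold Bf
    ring
  rw [h1, h]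
  unfold Af Bf P4f
  linear_combination (-13 * x ^ 8 - 8 * x ^ 7 * W.b₂ - x ^ 6 * W.b₂ ^ 2 - 28 * x ^ 6 * W.b₄ - 6 * x ^ 5 * W.b₂ * W.b₄ - 38 * x ^ 5 * W.b₆ - 7 * x ^ 4 * W.b₂ * W.b₆ - 8 * x ^ 4 * W.b₄ ^ 2 - 22 * x ^ 4 * W.b₈ - 4 * x ^ 3 * W.b₂ * W.b₈ - 16 * x ^ 3 * W.b₄ * W.b₆ - 8 * x ^ 2 * W.b₄ * W.b₈ - 7 * x ^ 2 * W.b₆ ^ 2 - 6 * x * W.b₆ * W.b₈ - W.b₈ ^ 2) * W.b_relation

theorem Af_dup (W : WeierstrassCurve K) {x x₂ : K} (h : x₂ * Bf W x = Af W x) :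
    Af W x₂ * Bf W x ^ 4 = x * Bf W x * P4f W x ^ 2 - T5f W x * T3f W x := by
  have h1 : Af W x₂ * Bf W x ^ 4 = (x₂ * Bf W x) ^ 4 - W.b₄ * (x₂ * Bf W x) ^ 2 * Bf W x ^ 2 -
      2 * W.b₆ * (x₂ * Bf W x) * Bf W x ^ 3 - W.b₈ * Bf W x ^ 4 := by
    generalize Bf W x = B
    unfold Af
    ring
  rw [h1, h]
  unfold T5f Af Bf P4f T3f
  linear_combination (-4 * x ^ 12 - 5 * x ^ 11 * W.b₂ - x ^ 10 * W.b₂ ^ 2 - 42 * x ^ 10 * W.b₄ - 16 * x ^ 9 * W.b₂ * W.b₄ - 93 * x ^ 9 * W.b₆ - x ^ 8 * W.b₂ ^ 2 * W.b₄ - 36 * x ^ 8 * W.b₂ * W.b₆ - 28 * x ^ 8 * W.b₄ ^ 2 - 72 * x ^ 8 * W.b₈ - 3 * x ^ 7 * W.b₂ ^ 2 * W.b₆ - 4 * x ^ 7 * W.b₂ * W.b₄ ^ 2 - 30 * x ^ 7 * W.b₂ * W.b₈ - 84 * x ^ 7 * W.b₄ * W.b₆ - 3 * x ^ 6 * W.b₂ ^ 2 * W.b₈ - 14 * x ^ 6 * W.b₂ * W.b₄ * W.b₆ - 4 * x ^ 6 * W.b₄ ^ 3 - 60 * x ^ 6 * W.b₄ * W.b₈ - 39 * x ^ 6 * W.b₆ ^ 2 - 12 * x ^ 5 * W.b₂ * W.b₄ * W.b₈ - 7 * x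 ^ 5 * W.b₂ * W.b₆ ^ 2 - 16 * x ^ 5 * W.b₄ ^ 2 * W.b₆ - 38 * x ^ 5 * W.b₆ * W.b₈ - 8 * x ^ 4 * W.b₂ * W.b₆ * W.b₈ - 12 * x ^ 4 * W.b₄ ^ 2 * W.b₈ - 15 * x ^ 4 * W.b₄ * W.b₆ ^ 2 - 4 * x ^ 4 * W.b₈ ^ 2 - x ^ 3 * W.b₂ * W.b₈ ^ 2 - 16 * x ^ 3 * W.b₄ * W.b₆ * W.b₈ - 4 * x ^ 3 * W.b₆ ^ 3 - 2 * x ^ 2 * W.b₄ * W.b₈ ^ 2 - 5 * x ^ 2 * W.b₆ ^ 2 * W.b₈ - x * W.b₆ * W.b₈ ^ 2) * W.b_relation

variable [DecidableEq K] {W : WeierstrassCurve.Affine K}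

theorem five_torsion_relations {P : W.Point} (hP : P ≠ 0) (h5 : 5 • P = 0) :
    2 • P ≠ 0 ∧ xc P ≠ xc (2 • P) ∧ Bf W (xc P) ≠ 0 ∧ Bf W (xc (2 • P)) ≠ 0 ∧
      xc (2 • P) * Bf W (xc P) = Af W (xc P) ∧ xc P * Bf W (xc (2 • P)) = Af W (xc (2 • P)) := by
  have h2 : 2 • P ≠ 0 := by
    intro h2
    apply hP
    have : 5 • P = 2 • (2 • P) + P := by
      rw [← mul_nsmul, ← succ_nsmul]
    rw [h5, h2, nsmul_zero, zero_add] at this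
    exact this.symm
  have h4 : 2 • (2 • P) = -P := by
    rw [eq_neg_iff_add_eq_zero, ← mul_nsmul, ← succ_nsmul]
    exact h5
  have h4' : 2 • (2 • P) ≠ 0 := by
    rw [h4]
    exact neg_ne_zero.mpr hP
  refine ⟨h2, ?_, ?_, ?_, xc_two_nsmul hP h2, ?_⟩
  · intro hx
    rcases (xc_eq_iff hP h2).mp hx with h | h
    · apply hP
      rw [two_nsmul] at h
      exact left_eq_add.mp h
    · -- P = -2P, so 3P = 0, so P = 6P - 5P = 0
      have h3 : 3 • P = 0 := by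
        rw [succ_nsmul P 2, add_comm]
        exact eq_neg_iff_add_eq_zero.mp h
      apply hP
      have : 2 • (3 • P) = 5 • P + P := by
        rw [← mul_nsmul, ← succ_nsmul]
      rw [h3, h5, nsmul_zero, zero_add] at this
      exact this.symm
  · exact fun h => h2 ((two_nsmul_eq_zero_iff hP).mpr h)
  · exact fun h => h4' ((two_nsmul_eq_zero_iff h2).mpr h)
  · have := xc_two_nsmul h2 h4'
    rwa [h4, xc_neg] at this

theorem five_nsmul_of_T5f (hΔ : W.Δ ≠ 0) {P : W.Point} (hP : P ≠ 0) (h : T5f W (xc P) = 0) :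
    5 • P = 0 := by
  -- Bf is nonzero at the root
  have hB : Bf W (xc P) ≠ 0 := by
    intro hB
    have h3 : T3f W (xc P) = 0 := by
      unfold T5f at h
      rw [hB] at h
      have : T3f W (xc P) ^ 3 = 0 := by linear_combination -h
      exact pow_eq_zero_iff (three_ne_zero) |>.mp this
    exact Bf_ne_zero_of_T3f hΔ h3 hB
  have h2 : 2 • P ≠ 0 := fun h2 => hB ((two_nsmul_eq_zero_iff hP).mp h2)
  have hx2 := xc_two_nsmul hP h2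
  have hBd := Bf_dup W hx2
  have hAd := Af_dup W hx2
  -- T3f is nonzero at the root
  have h3 : T3f W (xc P) ≠ 0 := by
    intro h3
    have h3P := three_nsmul_of_T3f hΔ hP h3
    have hP4 : P4f W (xc P) = 0 := by
      unfold T5f at h
      rw [h3] at h
      have : P4f W (xc P) * Bf W (xc P) ^ 2 = 0 := by linear_combination h
      rcases mul_eq_zero.mp this with h' | h'
      · exact h'
      · exact absurd (pow_eq_zero_iff two_ne_zero |>.mp h') hB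
    rw [hP4] at hBd
    have hB2 : Bf W (xc (2 • P)) = 0 := by
      have : Bf W (xc (2 • P)) * Bf W (xc P) ^ 3 = 0 := by rw [hBd]; ring
      rcases mul_eq_zero.mp this with h' | h'
      · exact h'
      · exact absurd (pow_eq_zero_iff three_ne_zero |>.mp h') hB
    have h4P : 2 • (2 • P) = 0 := (two_nsmul_eq_zero_iff h2).mpr hB2
    apply hP
    have : 2 • (2 • P) = 3 • P + P := by
      rw [← mul_nsmul, ← succ_nsmul]
    rw [h4P, h3P, zero_add] at this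
    exact this.symm
  have hP4 : P4f W (xc P) ≠ 0 := by
    intro hP4
    apply h3
    unfold T5f at h
    rw [hP4] at h
    have : T3f W (xc P) ^ 3 = 0 := by linear_combination -h
    exact pow_eq_zero_iff (three_ne_zero) |>.mp this
  have hB2 : Bf W (xc (2 • P)) ≠ 0 := by
    intro hB2
    rw [hB2, zero_mul] at hBd
    exact hP4 (pow_eq_zero_iff two_ne_zero |>.mp hBd.symm)
  have h4 : 2 • (2 • P) ≠ 0 := fun h4 => hB2 ((two_nsmul_eq_zero_iff h2).mp h4)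
  have hx4 := xc_two_nsmul h2 h4
  have hx4' : xc (2 • (2 • P)) = xc P := by
    rw [h, zero_mul, sub_zero, ← hBd] at hAd
    -- Af x₂ * B^4 = x * B * (Bf x₂ * B^3)
    have h6 : Af W (xc (2 • P)) = xc P * Bf W (xc (2 • P)) := by
      apply mul_right_cancel₀ (pow_ne_zero 4 hB)
      rw [hAd]; ring
    rw [h6] at hx4
    exact mul_right_cancel₀ hB2 hx4
  rcases (xc_eq_iff h4 hP).mp hx4' with h' | h'
  · exfalso
    apply h3
    apply T3f_of_three_nsmul hP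
    have : 2 • (2 • P) = 3 • P + P := by
      rw [← mul_nsmul, ← succ_nsmul]
    rw [h'] at this
    exact right_eq_add.mp this |>.symm ▸ rfl
  · have : 5 • P = 2 • (2 • P) + P := by
      rw [← mul_nsmul, ← succ_nsmul]
    rw [this, h', neg_add_cancel]

theorem exists_five_torsion [IsAlgClosed K] [CharZero K] (hΔ : W.Δ ≠ 0) :
    ∃ P : W.Point, P ≠ 0 ∧ 5 • P = 0 := by
  have h5 : ((5 : ℕ) : K) ≠ 0 := by norm_num
  obtain ⟨x, hx⟩ := IsAlgClosed.exists_root (W.preΨ' 5) (by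
    rw [Polynomial.degree_eq_natDegree (W.preΨ'_ne_zero h5)]
    have := W.natDegree_preΨ'_pos (n := 5) (by norm_num) h5
    exact_mod_cast this.ne')
  obtain ⟨P, hP, rfl⟩ := exists_point hΔ x
  refine ⟨P, hP, five_nsmul_of_T5f hΔ hP ?_⟩
  rw [Polynomial.IsRoot.def, show 5 = 2 * (0 + 2) + 1 by rfl, WeierstrassCurve.preΨ'_odd] at hx
  simp only [zero_add, WeierstrassCurve.preΨ'_four, WeierstrassCurve.preΨ'_two,
    WeierstrassCurve.preΨ'_one, WeierstrassCurve.preΨ'_three, Even.zero, if_true,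
    WeierstrassCurve.preΨ₄, WeierstrassCurve.Ψ₃, WeierstrassCurve.Ψ₂Sq,
    Polynomial.eval_add, Polynomial.eval_sub, Polynomial.eval_mul, Polynomial.eval_pow,
    Polynomial.eval_X, Polynomial.eval_C, Polynomial.eval_ofNat, Polynomial.eval_one] at hx
  unfold T5f P4f Bf T3f
  linear_combination hx

end P3

end FA51
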